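import Fermat.Agent.HasseInvariant.General
import Fermat.Agent.MeyerNF.Main
import Fermat.Agent.WeakHasseMinkowski.Main

/-!
# The completions of a number field

Every unit of a completion is a square times an element of the field, so the symbol is bilinear
there and forms in five variables have zeros.
-/

set_option autoImplicit false
set_option linter.style.haveILetI false

noncomputable section

universe u

open QuadraticMap NumberField IsDedekindDomain
open Fermat.Agent.WittRat
open Fermat.Agent.QuadraticHauptsatz (mapUnits)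

namespace Fermat.Agent.HasseInvariant

variable {K : Type u} [Field K] [NumberField K]

/-- A unit of a completion is an element of the field up to a square. -/
theorem exists_eq_mul_sq (P : HeightOneSpectrum (𝓞 K)) (z : (P.adicCompletion K)ˣ) :
    ∃ (b : Kˣ) (s : P.adicCompletion K), s ≠ 0 ∧
      algebraMap K (P.adicCompletion K) (b : K) = z * s ^ 2 := by
  obtain ⟨U, hU, hsq⟩ := FA.QuadFormsNF.exists_isSquare_mul_near P z.ne_zero
  obtain ⟨k, hk⟩ := FA.QuadFormsNF.exists_exp_subset P hU
  obtain ⟨b, hb⟩ := FA.QuadFormsNF.exists_element_near P (z : P.adicCompletion K) k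
  obtain ⟨s, hs, e⟩ := hsq _ (hk _ hb)
  exact ⟨b, s, hs, e⟩

theorem localLike_completion (P : HeightOneSpectrum (𝓞 K)) : LocalLike (P.adicCompletion K) where
  two_ne_zero := FA.QuadFormsNF.two_ne_zero_completion P
  bilinear a b c := by
    set f := algebraMap K (P.adicCompletion K)
    obtain ⟨a', s, hs, ha⟩ := exists_eq_mul_sq P a
    obtain ⟨b', t, ht, hb⟩ := exists_eq_mul_sq P b
    obtain ⟨c', r, hr, hc⟩ := exists_eq_mul_sq P c
    obtain ⟨N, hN, hidx⟩ := FA.QuaternionNF.exists_splitGroup P a'.ne_zero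
    have key : ∀ (z : P.adicCompletion K) (w : Kˣ) (l : P.adicCompletion K), l ≠ 0 →
        f (w : K) = z * l ^ 2 → (conic (a : P.adicCompletion K) z ↔ w ∈ N) := fun z w l hl hw => by
      refine Iff.trans ?_ (hN w).symm
      show _ ↔ conic (f (a' : K)) (f (w : K))
      rw [hw, conic_mul_sq hl, conic_comm (a := f (a' : K)), ha, conic_mul_sq hs, conic_comm]
    rw [key _ (b' * c') (t * r) (mul_ne_zero ht hr) (by rw [Units.val_mul, map_mul, hb, hc]; ring),
      key _ b' t ht hb, key _ c' r hr hc]
    rcases hidx with rfl | hidx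
    · simp
    · exact Subgroup.mul_mem_iff_of_index_two hidx
  five a := by
    choose b s hs hb using fun i => exists_eq_mul_sq P (a i)
    exact FA.QuadForms.Isotropic.of_sq s hs hb
      (Fermat.Agent.MeyerNF.isotropic_completion (by simp) (fun i => (b i : K)) P)

/-- **Classification over the completions.** -/
theorem equivalent_completion_iff (P : HeightOneSpectrum (𝓞 K)) {n : ℕ}
    (w v : Fin n → (P.adicCompletion K)ˣ) :
    Equivalent (diag w) (diag v) ↔
      (∃ c : P.adicCompletion K, c ≠ 0 ∧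
        ∏ i, (w i : P.adicCompletion K) = (∏ i, (v i : P.adicCompletion K)) * c ^ 2) ∧
      Nat.card {p : Fin n × Fin n // p.1 < p.2 ∧ ¬ conic (w p.1 : P.adicCompletion K) (w p.2)} % 2 =
        Nat.card {p : Fin n × Fin n //
          p.1 < p.2 ∧ ¬ conic (v p.1 : P.adicCompletion K) (v p.2)} % 2 :=
  equivalent_iff (localLike_completion P) w v

/-- The pairs without a point at a prime. -/
abbrev badPairs (P : HeightOneSpectrum (𝓞 K)) {n : ℕ} (w : Fin n → Kˣ) : Type :=
  {p : Fin n × Fin n // p.1 < p.2 ∧ ¬ conic (algebraMap K (P.adicCompletion K) (w p.1 : K))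
    (algebraMap K (P.adicCompletion K) (w p.2 : K))}

/-- **Classification over a number field.** -/
theorem equivalent_numberField_iff {n : ℕ} (w v : Fin n → Kˣ) :
    Equivalent (diag w) (diag v) ↔
      (∃ c : K, c ≠ 0 ∧ ∏ i, (w i : K) = (∏ i, (v i : K)) * c ^ 2) ∧
      (∀ P : HeightOneSpectrum (𝓞 K), Nat.card (badPairs P w) % 2 = Nat.card (badPairs P v) % 2) ∧
      ∀ φ : K →+* ℝ, FA.WeakHasseMinkowski.posCount (fun i => mapUnits φ (w i)) =
        FA.WeakHasseMinkowski.posCount fun i => mapUnits φ (v i) := by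
  rw [FA.WeakHasseMinkowski.diag_equivalent_iff_local]
  constructor
  · rintro ⟨hfin, hreal⟩
    have hloc := fun P => (equivalent_completion_iff P _ _).1 (hfin P)
    have hv0 : (∏ i, (v i : K)) ≠ 0 := Finset.prod_ne_zero_iff.2 fun i _ => (v i).ne_zero
    have hw0 : (∏ i, (w i : K)) ≠ 0 := Finset.prod_ne_zero_iff.2 fun i _ => (w i).ne_zero
    obtain ⟨c, hc⟩ : IsSquare ((∏ i, (w i : K)) / ∏ i, (v i : K)) := by
      refine FA.QuadFormsNF.isSquare_of_local (div_ne_zero hw0 hv0) fun P => ?_
      obtain ⟨c, -, hc⟩ := (hloc P).1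
      refine ⟨c, ?_⟩
      simp only [Fermat.Agent.QuadraticHauptsatz.coe_mapUnits, ← map_prod] at hc
      rw [map_div₀, hc, ← pow_two, mul_div_cancel_left₀ _ ((map_ne_zero _).2 hv0)]
    have hc0 : c ≠ 0 := fun e => div_ne_zero hw0 hv0 (by rw [hc, e, mul_zero])
    exact ⟨⟨c, hc0, by rw [pow_two, ← hc, mul_div_cancel₀ _ hv0]⟩, fun P => (hloc P).2, hreal⟩
  · rintro ⟨⟨c, hc0, hc⟩, hh, hreal⟩
    refine ⟨fun P => (equivalent_completion_iff P _ _).2
      ⟨⟨algebraMap K _ c, (map_ne_zero _).2 hc0, ?_⟩, hh P⟩, hreal⟩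
    simp only [Fermat.Agent.QuadraticHauptsatz.coe_mapUnits]
    rw [← map_prod, ← map_prod, ← map_pow, ← map_mul, hc]

end Fermat.Agent.HasseInvariant

end
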