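import Fermat.Agent.HasseInvariant.Completion
import Fermat.Agent.QuaternionNF.Existence

/-!
# Forms with given invariants

In three variables the form `d ⟨-a, -b, a b⟩` takes its Hasse invariants from the ramification of the
quaternion algebra `(a, b)`; above three a coefficient with prescribed signs splits off, the parity
condition being kept by the product formula.
-/

set_option autoImplicit false
set_option linter.style.haveILetI false

noncomputable section

universe u

open QuadraticMap NumberField IsDedekindDomain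
open Fermat.Agent.QuadraticHauptsatz (mapUnits mapUnits_neg coe_mapUnits)
open scoped Classical

namespace Fermat.Agent.HasseInvariant

/-! ### Algebra of the symbol -/

section general

variable {F : Type*} [Field F] (hF : LocalLike F)
include hF

omit hF in
theorem sym_one_right (a : Fˣ) : sym a 1 = 0 := sym_eq_zero.2 ⟨0, 1, by simp⟩

theorem sym_self (a : Fˣ) : sym a a = sym a (-1) := by
  have h := sym_self_neg hF a
  rw [← neg_one_mul a, sym_mul_right hF] at h
  generalize sym a a = p, sym a (-1) = q at h ⊢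
  revert p q
  decide

theorem sum_sym_eq {n : ℕ} (a : Fˣ) (u : Fin n → Fˣ) : ∑ j, sym a (u j) = sym a (∏ j, u j) := by
  induction n with
  | zero => simp [sym_one_right a]
  | succ n ih => rw [Fin.sum_univ_succ, Fin.prod_univ_succ, sym_mul_right hF, ih]

/-- The Hasse invariant of the scaled form of pure quaternions. -/
theorem hasse_pure (d a b : Fˣ) :
    hasse ![-(d * a), -(d * b), d * (a * b)] = sym a b + sym (-1) (-d) := by
  have hl := sym_mul_left hF
  have hr := sym_mul_right hF
  rw [show -(d * a) = (-1) * (d * a) by rw [neg_one_mul],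
    show -(d * b) = (-1) * (d * b) by rw [neg_one_mul], show -d = (-1) * d by rw [neg_one_mul]]
  simp only [hasse, Fin.sum_univ_three, Matrix.cons_val_zero, Matrix.cons_val_one, Matrix.cons_val,
    lt_irrefl, if_false, zero_add, add_zero, show (0 : Fin 3) < 1 by decide,
    show (0 : Fin 3) < 2 by decide, show (1 : Fin 3) < 2 by decide,
    show ¬ (1 : Fin 3) < 0 by decide, show ¬ (2 : Fin 3) < 0 by decide,
    show ¬ (2 : Fin 3) < 1 by decide, if_true, hl, hr, sym_self hF d, sym_self hF a,
    sym_self hF b, sym_comm a d, sym_comm b d, sym_comm b a, sym_comm d (-1), sym_comm a (-1),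
    sym_comm b (-1)]
  generalize sym (-1 : Fˣ) (-1) = t, sym (-1) d = p, sym (-1) a = q, sym (-1) b = r, sym d a = x,
    sym d b = y, sym a b = z
  revert t p q r x y z
  decide

end general

/-! ### Real places -/

/-- The real symbol. -/
theorem sym_real (a b : ℝˣ) : sym a b = if (a : ℝ) < 0 ∧ (b : ℝ) < 0 then 1 else 0 := by
  have h := FA.QuadFormsNF.real_conic_iff (t := (b : ℝ)) a.ne_zero
  rw [show ((b : ℝ) ≤ 0 ↔ (b : ℝ) < 0) from
    ⟨fun e => lt_of_le_of_ne e b.ne_zero, le_of_lt⟩] at h
  unfold sym conic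
  split_ifs with h1 h2 h2
  · exact absurd h1 (h.2 h2)
  · rfl
  · rfl
  · exact absurd (h.1 h1) h2

/-- The number of negative coefficients. -/
def negCount {n : ℕ} (u : Fin n → ℝˣ) : ℕ := ∑ i, if (u i : ℝ) < 0 then 1 else 0

theorem negCount_cons {n : ℕ} (a : ℝˣ) (u : Fin n → ℝˣ) :
    negCount (Fin.cons a u) = (if (a : ℝ) < 0 then 1 else 0) + negCount u := by
  simp only [negCount, Fin.sum_univ_succ, Fin.cons_zero, Fin.cons_succ]

theorem negCount_le {n : ℕ} (u : Fin n → ℝˣ) : negCount u ≤ n :=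
  (Finset.sum_le_card_nsmul _ _ 1 fun i _ => by split_ifs <;> simp).trans (by simp)

theorem posCount_add_negCount {n : ℕ} (u : Fin n → ℝˣ) :
    FA.WeakHasseMinkowski.posCount u + negCount u = n := by
  rw [FA.WeakHasseMinkowski.posCount, Finset.card_filter, negCount, ← Finset.sum_add_distrib]
  refine (Finset.sum_congr rfl fun i _ => ?_).trans (by simp : ∑ _i : Fin n, 1 = n)
  rcases lt_or_gt_of_ne (u i).ne_zero with h | h <;> simp [h, not_lt.2 h.le]

theorem prod_neg_iff : ∀ {n : ℕ} (u : Fin n → ℝˣ),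
    ∏ i, (u i : ℝ) < 0 ↔ Odd (negCount u)
  | 0, u => by simp [negCount]
  | n + 1, u => by
    conv_rhs => rw [← Fin.cons_self_tail u, negCount_cons]
    rw [Fin.prod_univ_succ, show ∏ i : Fin n, (u i.succ : ℝ) = ∏ i, (Fin.tail u i : ℝ) from rfl]
    have h0 : ∏ i, (Fin.tail u i : ℝ) ≠ 0 := Finset.prod_ne_zero_iff.2 fun i _ => Units.ne_zero _
    rcases lt_or_gt_of_ne (u 0).ne_zero with h | h
    · rw [if_pos h, mul_neg_iff, add_comm 1, Nat.odd_add_one, ← prod_neg_iff]
      simp only [h, not_lt.2 h.le, false_and, true_and, false_or, not_lt]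
      exact ⟨fun e => e.le, fun e => lt_of_le_of_ne e h0.symm⟩
    · rw [if_neg (not_lt.2 h.le), zero_add, ← prod_neg_iff, mul_neg_iff]
      simp [h, not_lt.2 h.le]

/-- The real Hasse invariant. -/
theorem hasse_real : ∀ {n : ℕ} (u : Fin n → ℝˣ), hasse u = (((negCount u).choose 2 : ℕ) : ZMod 2)
  | 0, u => by simp [hasse, negCount]
  | n + 1, u => by
    rw [← Fin.cons_self_tail u, hasse_cons, negCount_cons, hasse_real]
    simp only [sym_real]
    by_cases h : ((u 0 : ℝˣ) : ℝ) < 0
    · simp only [h, true_and, if_true]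
      rw [add_comm 1, Nat.choose_succ_succ, Nat.choose_one_right, Nat.cast_add, add_comm]
      simp [negCount]
    · simp [h]

/-! ### The product formula -/

variable {K : Type u} [Field K] [NumberField K]

/-- The symbol at a prime. -/
abbrev symP (P : HeightOneSpectrum (𝓞 K)) (a b : Kˣ) : ZMod 2 :=
  sym (mapUnits (algebraMap K (P.adicCompletion K)) a)
    (mapUnits (algebraMap K (P.adicCompletion K)) b)

/-- The Hasse invariant at a prime. -/
abbrev hasseP (P : HeightOneSpectrum (𝓞 K)) {n : ℕ} (w : Fin n → Kˣ) : ZMod 2 :=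
  hasse fun i => mapUnits (algebraMap K (P.adicCompletion K)) (w i)

theorem symP_support (a b : Kˣ) :
    (Function.support fun P : HeightOneSpectrum (𝓞 K) => symP P a b).Finite := by
  refine (FA.QuadFormsNF.even_card_no_point a.ne_zero b.ne_zero).1.subset fun P hP => ?_
  exact fun h => hP (sym_eq_zero.2 h)

/-- **Reciprocity**, additively. -/
theorem sum_symP (a b : Kˣ) :
    ∑ᶠ P : HeightOneSpectrum (𝓞 K), symP P a b +
      ∑ φ : K →+* ℝ, sym (mapUnits φ a) (mapUnits φ b) = 0 := by
  obtain ⟨hfin, heven⟩ := FA.QuadFormsNF.even_card_no_point a.ne_zero b.ne_zero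
  have h1 : ∑ᶠ P : HeightOneSpectrum (𝓞 K), symP P a b = (hfin.toFinset.card : ZMod 2) := by
    rw [finsum_eq_sum_of_support_subset (s := hfin.toFinset) _ fun P hP => by
      simp only [Set.Finite.coe_toFinset]
      exact fun h => hP (sym_eq_zero.2 h)]
    rw [Finset.sum_congr rfl (g := fun _ => (1 : ZMod 2)) fun P hP => ?_, Finset.sum_const,
      nsmul_one]
    rw [Set.Finite.mem_toFinset] at hP
    unfold symP sym conic
    exact if_neg hP
  have h2 : ∑ φ : K →+* ℝ, sym (mapUnits φ a) (mapUnits φ b) =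
      ((Finset.univ.filter fun φ : K →+* ℝ => ¬ conic (φ (a : K)) (φ (b : K))).card : ZMod 2) := by
    rw [← Finset.sum_boole]
    refine Finset.sum_congr rfl fun φ _ => ?_
    unfold sym
    simp only [coe_mapUnits]
    by_cases hc : conic (φ (a : K)) (φ (b : K)) <;> simp [hc]
  rw [h1, h2, ← Nat.cast_add, ZMod.natCast_eq_zero_iff, ← even_iff_two_dvd]
  rw [Set.ncard_eq_toFinset_card _ hfin, Set.ncard_eq_toFinset_card', Set.toFinset_ofPred] at heven
  exact heven

/-- Splitting off a coefficient. -/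
theorem hasseP_cons (P : HeightOneSpectrum (𝓞 K)) {n : ℕ} (a : Kˣ) (w : Fin n → Kˣ) :
    hasseP P (Fin.cons a w : Fin (n + 1) → Kˣ) = hasseP P w + symP P a (∏ i, w i) := by
  set f := mapUnits (algebraMap K (P.adicCompletion K))
  show hasse (fun i => f ((Fin.cons a w : Fin (n + 1) → Kˣ) i)) =
    hasse (fun i => f (w i)) + sym (f a) (f (∏ i, w i))
  rw [map_prod, ← sum_sym_eq (localLike_completion P)]
  exact (congrArg hasse (funext fun i => by cases i using Fin.cases <;> simp)).trans
    (hasse_cons (f a) fun i => f (w i))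

theorem hasseP_support : ∀ {n : ℕ} (w : Fin n → Kˣ),
    (Function.support fun P : HeightOneSpectrum (𝓞 K) => hasseP P w).Finite
  | 0, w => by simp [hasseP, hasse, Function.support]
  | n + 1, w => by
    rw [← Fin.cons_self_tail w]
    simp only [hasseP_cons]
    exact ((hasseP_support (Fin.tail w)).union (symP_support _ _)).subset (Function.support_add _ _)

omit [NumberField K] in
theorem negCount_map_cons (φ : K →+* ℝ) {n : ℕ} (a : Kˣ) (w : Fin n → Kˣ) :
    negCount (fun i => mapUnits φ ((Fin.cons a w : Fin (n + 1) → Kˣ) i)) =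
      (if φ (a : K) < 0 then 1 else 0) + negCount fun i => mapUnits φ (w i) :=
  (congrArg negCount (funext fun i => by cases i using Fin.cases <;> simp)).trans
    (negCount_cons (mapUnits φ a) fun i => mapUnits φ (w i))

omit [NumberField K] in
theorem neg_iff_odd (φ : K →+* ℝ) {n : ℕ} (w : Fin n → Kˣ) {d : Kˣ} {c : K}
    (hc : ∏ i, (w i : K) = d * c ^ 2) :
    φ (d : K) < 0 ↔ Odd (negCount fun i => mapUnits φ (w i)) := by
  rw [← prod_neg_iff]
  simp only [coe_mapUnits]
  rw [← map_prod, hc, map_mul, map_pow]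
  have hc0 : φ c ≠ 0 := (map_ne_zero φ).2 fun e => by
    rw [e, zero_pow two_ne_zero, mul_zero] at hc
    exact Finset.prod_ne_zero_iff.2 (fun i _ => (w i).ne_zero) hc
  exact ⟨fun h => mul_neg_of_neg_of_pos h (pow_two_pos_of_ne_zero hc0),
    fun h => neg_of_mul_neg_left h (sq_nonneg _)⟩

theorem sum_hasseP : ∀ {n : ℕ} (w : Fin n → Kˣ),
    ∑ᶠ P : HeightOneSpectrum (𝓞 K), hasseP P w +
      ∑ φ : K →+* ℝ, (((negCount fun i => mapUnits φ (w i)).choose 2 : ℕ) : ZMod 2) = 0
  | 0, w => by simp [hasseP, hasse, negCount]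
  | n + 1, w => by
    simp only [← hasse_real]
    rw [← Fin.cons_self_tail w]
    simp only [hasseP_cons]
    rw [finsum_add_distrib (hasseP_support _) (symP_support _ _)]
    have e : ∀ φ : K →+* ℝ,
        hasse (fun i => mapUnits φ ((Fin.cons (w 0) (Fin.tail w) : Fin (n + 1) → Kˣ) i)) =
          hasse (fun i => mapUnits φ (Fin.tail w i)) +
            sym (mapUnits φ (w 0)) (mapUnits φ (∏ i, Fin.tail w i)) := fun φ => by
      rw [hasse_real, hasse_real, sym_real, negCount_map_cons]
      simp only [coe_mapUnits]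
      have hiff := neg_iff_odd φ (Fin.tail w) (d := ∏ i, Fin.tail w i) (c := 1) (by simp)
      by_cases h : φ (w 0 : K) < 0
      · rw [if_pos h, add_comm 1, Nat.choose_succ_succ, Nat.choose_one_right, Nat.cast_add,
          add_comm]
        congr 1
        simp only [h, true_and]
        split_ifs with hodd
        · exact (ZMod.natCast_eq_one_iff_odd).2 (hiff.1 hodd)
        · exact (ZMod.natCast_eq_zero_iff_even).2 (Nat.not_odd_iff_even.1 (mt hiff.2 hodd))
      · simp [h]
    simp only [e, Finset.sum_add_distrib]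
    have h1 := sum_hasseP (Fin.tail w)
    simp only [← hasse_real] at h1
    linear_combination h1 + sum_symP (w 0) (∏ i, Fin.tail w i)

/-! ### Existence -/

/-- Prescribed signs. -/
theorem exists_signs (q : (K →+* ℝ) → Prop) : ∃ a : Kˣ, ∀ φ : K →+* ℝ, φ (a : K) < 0 ↔ q φ := by
  obtain ⟨x, -, hx⟩ := FA.QuadFormsNF.exists_weak_approx (K := K) ∅ (fun _ => Set.univ)
    (fun v hv => absurd hv (Finset.notMem_empty v))
    (fun φ => if q φ then Set.Iio 0 else Set.Ioi 0) fun φ => by
      by_cases h : q φ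
      · exact ⟨-1, by simp only [if_pos h]; exact Iio_mem_nhds (by norm_num)⟩
      · exact ⟨1, by simp only [if_neg h]; exact Ioi_mem_nhds (by norm_num)⟩
  have hsgn : ∀ φ : K →+* ℝ, φ x ≠ 0 ∧ (φ x < 0 ↔ q φ) := fun φ => by
    have := hx φ
    split_ifs at this with h
    · exact ⟨ne_of_lt this, iff_of_true this h⟩
    · exact ⟨ne_of_gt this, iff_of_false (not_lt.2 (le_of_lt this)) h⟩
  by_cases hx0 : x = 0
  · exact ⟨1, fun φ => absurd (by rw [hx0, map_zero]) (hsgn φ).1⟩
  · exact ⟨Units.mk0 x hx0, fun φ => (hsgn φ).2⟩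

/-- Three variables. -/
theorem exists_form_three (d : Kˣ) (E : HeightOneSpectrum (𝓞 K) → ZMod 2) (m : (K →+* ℝ) → ℕ)
    (hm : ∀ φ, m φ ≤ 3) (hd : ∀ φ, φ (d : K) < 0 ↔ Odd (m φ)) (hE : (Function.support E).Finite)
    (hsum : ∑ᶠ P, E P + ∑ φ : K →+* ℝ, (((m φ).choose 2 : ℕ) : ZMod 2) = 0) :
    ∃ w : Fin 3 → Kˣ, (∃ c : Kˣ, ∏ i, w i = d * c ^ 2) ∧ (∀ P, hasseP P w = E P) ∧
      ∀ φ : K →+* ℝ, negCount (fun i => mapUnits φ (w i)) = m φ := by
  set T : HeightOneSpectrum (𝓞 K) → ZMod 2 := fun P => E P + symP P (-1) (-d)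
  have hT : (Function.support T).Finite :=
    (hE.union (symP_support _ _)).subset (Function.support_add _ _)
  set R := Finset.univ.filter fun φ : K →+* ℝ => m φ = 0 ∨ m φ = 3 with hR
  have hTsum : ∑ᶠ P, T P = (hT.toFinset.card : ZMod 2) := by
    rw [finsum_eq_sum_of_support_subset (s := hT.toFinset) T (by simp),
      Finset.sum_congr rfl (g := fun _ => (1 : ZMod 2)) fun P hP => ?_, Finset.sum_const, nsmul_one]
    rw [Set.Finite.mem_toFinset, Function.mem_support] at hP
    generalize T P = t at hP ⊢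
    revert t
    decide
  have hφ : ∀ φ : K →+* ℝ, (((m φ).choose 2 : ℕ) : ZMod 2) =
      sym (mapUnits φ (-1 : Kˣ)) (mapUnits φ (-d)) + if m φ = 0 ∨ m φ = 3 then 1 else 0 := fun φ => by
    have hdφ := hd φ
    have h0 : φ (d : K) ≠ 0 := (map_ne_zero φ).2 d.ne_zero
    rw [sym_real]
    simp only [coe_mapUnits, Units.val_neg, Units.val_one, map_neg, map_one, neg_neg_iff_pos,
      zero_lt_one, true_and]
    rcases (show m φ = 0 ∨ m φ = 1 ∨ m φ = 2 ∨ m φ = 3 by have := hm φ; omega) with
      h | h | h | h <;> rw [h] at hdφ ⊢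
    · rw [if_pos (lt_of_le_of_ne (not_lt.1 fun e => by simpa using hdφ.1 e) h0.symm)]
      simp only [Nat.choose_zero_succ, Nat.cast_zero, true_or, if_true]
      decide
    · rw [if_neg (not_lt.2 (hdφ.2 odd_one).le)]
      simp
    · rw [if_pos (lt_of_le_of_ne
        (not_lt.1 fun e => absurd (hdφ.1 e) (by decide)) h0.symm)]
      simp
    · rw [if_neg (not_lt.2 (hdφ.2 (by decide)).le)]
      simp only [Nat.choose_succ_succ, Nat.choose_one_right]
      simp only [OfNat.ofNat_ne_zero, or_true, if_true]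
      decide
  have heven : Even (hT.toFinset.card + R.card) := by
    rw [even_iff_two_dvd, ← ZMod.natCast_eq_zero_iff, Nat.cast_add, ← hTsum, hR,
      ← Finset.sum_boole, finsum_add_distrib hE (symP_support _ _)]
    simp only [hφ, Finset.sum_add_distrib] at hsum
    have h2 : ∀ x : ZMod 2, x + x = 0 := by decide
    linear_combination hsum + sum_symP (-1) (-d) -
      h2 (∑ φ : K →+* ℝ, sym (mapUnits φ (-1)) (mapUnits φ (-d)))
  obtain ⟨a, b, ha, hb, hab, habR⟩ := FA.QuaternionNF.exists_prescribed hT.toFinset R heven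
  set A := Units.mk0 a ha
  set B := Units.mk0 b hb
  refine ⟨![-(d * A), -(d * B), d * (A * B)], ⟨d * (A * B), ?_⟩, fun P => ?_, fun φ => ?_⟩
  · simp only [Fin.prod_univ_three, Matrix.cons_val_zero, Matrix.cons_val_one, Matrix.cons_val,
      neg_mul_neg]
    rw [pow_two]
    ac_rfl
  · set f := mapUnits (algebraMap K (P.adicCompletion K))
    have hv : (fun i => f (![-(d * A), -(d * B), d * (A * B)] i)) =
        ![-(f d * f A), -(f d * f B), f d * (f A * f B)] := by
      funext i
      fin_cases i <;> simp [f, mapUnits_neg]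
    show hasse (fun i => f (![-(d * A), -(d * B), d * (A * B)] i)) = E P
    rw [hv, hasse_pure (localLike_completion P)]
    have hsym : sym (f A) (f B) = T P := by
      have h := hab P
      rw [Set.Finite.mem_toFinset, Function.mem_support] at h
      unfold sym
      split_ifs with hc
      · exact (not_not.1 fun hne => h.2 hne hc).symm
      · have h' := h.1 hc
        generalize T P = t at h' ⊢
        revert t
        decide
    have hone : f (-1) = -1 := by rw [mapUnits_neg, map_one]
    rw [hsym, ← mapUnits_neg, ← hone]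
    show E P + symP P (-1) (-d) + symP P (-1) (-d) = E P
    generalize symP P (-1) (-d) = s, E P = e
    revert s e
    decide
  · have hneg : (φ a < 0 ∧ φ b < 0) ↔ (m φ = 0 ∨ m φ = 3) := by
      have h := habR φ
      simp only [hR, Finset.mem_filter, Finset.mem_univ, true_and] at h
      rw [← h]
      refine Iff.trans ?_ (FA.QuadFormsNF.real_conic_iff ((map_ne_zero φ).2 ha)).symm
      exact and_congr_right fun _ => ⟨le_of_lt, fun e => lt_of_le_of_ne e ((map_ne_zero φ).2 hb)⟩
    have hdφ := hd φ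
    have hmφ := hm φ
    have key : ∀ x y : ℝ, x ≠ 0 → y ≠ 0 → (x * y < 0 ↔ ¬ (x < 0 ↔ y < 0)) := fun x y hx hy => by
      rcases lt_or_gt_of_ne hx with hx | hx <;> rcases lt_or_gt_of_ne hy with hy | hy <;>
        simp [mul_neg_iff, hx, hy, not_lt.2 hx.le, not_lt.2 hy.le]
    have h1 : φ (d : K) ≠ 0 := (map_ne_zero φ).2 d.ne_zero
    have h2 : φ a ≠ 0 := (map_ne_zero φ).2 ha
    have h3 : φ b ≠ 0 := (map_ne_zero φ).2 hb
    simp only [negCount, Fin.sum_univ_three, coe_mapUnits, Matrix.cons_val_zero,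
      Matrix.cons_val_one, Matrix.cons_val, Units.val_neg, Units.val_mul, map_neg, map_mul,
      neg_neg_iff_pos, A, B, Units.val_mk0]
    have hp : ∀ x : ℝ, x ≠ 0 → (0 < x ↔ ¬ x < 0) := fun x hx =>
      ⟨fun e => not_lt.2 e.le, fun e => lt_of_le_of_ne (not_lt.1 e) hx.symm⟩
    simp only [hp _ (mul_ne_zero h1 h2), hp _ (mul_ne_zero h1 h3), key _ _ h1 h2, key _ _ h1 h3,
      key _ _ h1 (mul_ne_zero h2 h3), key _ _ h2 h3]
    rw [Nat.odd_iff] at hdφ
    by_cases e1 : φ (d : K) < 0 <;> by_cases e2 : φ a < 0 <;> by_cases e3 : φ b < 0 <;>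
      simp [e1, e2, e3] at hdφ hneg ⊢ <;> omega

/-- **Existence.** -/
theorem exists_form : ∀ (n : ℕ), 3 ≤ n → ∀ (d : Kˣ) (E : HeightOneSpectrum (𝓞 K) → ZMod 2)
    (m : (K →+* ℝ) → ℕ), (∀ φ, m φ ≤ n) → (∀ φ, φ (d : K) < 0 ↔ Odd (m φ)) →
    (Function.support E).Finite →
    ∑ᶠ P, E P + ∑ φ : K →+* ℝ, (((m φ).choose 2 : ℕ) : ZMod 2) = 0 →
    ∃ w : Fin n → Kˣ, (∃ c : Kˣ, ∏ i, w i = d * c ^ 2) ∧ (∀ P, hasseP P w = E P) ∧
      ∀ φ : K →+* ℝ, negCount (fun i => mapUnits φ (w i)) = m φ := by
  intro n hn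
  induction n, hn using Nat.le_induction with
  | base => exact exists_form_three
  | succ n hn ih =>
    intro d E m hm hd hE hsum
    obtain ⟨a, ha⟩ := exists_signs fun φ : K →+* ℝ => 1 ≤ m φ
    have hda : ∀ φ : K →+* ℝ, φ ((d * a : Kˣ) : K) < 0 ↔ Odd (m φ - 1) := fun φ => by
      have h1 : φ (d : K) ≠ 0 := (map_ne_zero φ).2 d.ne_zero
      have h2 : φ (a : K) ≠ 0 := (map_ne_zero φ).2 a.ne_zero
      rw [Units.val_mul, map_mul]
      have hdφ := hd φ
      have haφ := ha φ
      rw [Nat.odd_iff] at hdφ ⊢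
      rcases lt_or_gt_of_ne h1 with e1 | e1 <;> rcases lt_or_gt_of_ne h2 with e2 | e2 <;>
        simp [mul_neg_iff, e1, e2, not_lt.2 e1.le, not_lt.2 e2.le] at hdφ haφ ⊢ <;> omega
    have hφ : ∀ φ : K →+* ℝ, (((m φ).choose 2 : ℕ) : ZMod 2) =
        (((m φ - 1).choose 2 : ℕ) : ZMod 2) + sym (mapUnits φ a) (mapUnits φ (d * a)) := fun φ => by
      rw [sym_real]
      simp only [coe_mapUnits, ha φ, hda φ]
      rcases Nat.eq_zero_or_pos (m φ) with h | h
      · simp [h]
      · obtain ⟨k, hk⟩ : ∃ k, m φ = k + 1 := ⟨m φ - 1, by omega⟩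
        rw [hk, Nat.add_sub_cancel, Nat.choose_succ_succ, Nat.choose_one_right, Nat.cast_add,
          add_comm]
        simp only [Nat.le_add_left, true_and]
        congr 1
        split_ifs with hodd
        · exact (ZMod.natCast_eq_one_iff_odd).2 hodd
        · exact (ZMod.natCast_eq_zero_iff_even).2 (Nat.not_odd_iff_even.1 hodd)
    obtain ⟨w, ⟨c, hc⟩, hh, hneg⟩ := ih (d * a) (fun P => E P + symP P a (d * a))
      (fun φ => m φ - 1) (fun φ => by have := hm φ; omega) hda
      ((hE.union (symP_support _ _)).subset (Function.support_add _ _)) (by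
        rw [finsum_add_distrib hE (symP_support _ _)]
        simp only [hφ, Finset.sum_add_distrib] at hsum
        have h2 : ∀ x : ZMod 2, x + x = 0 := by decide
        linear_combination hsum + sum_symP a (d * a) -
          h2 (∑ φ : K →+* ℝ, sym (mapUnits φ a) (mapUnits φ (d * a))))
    refine ⟨Fin.cons a w, ⟨a * c, ?_⟩, fun P => ?_, fun φ => ?_⟩
    · rw [Fin.prod_cons, hc, mul_pow, pow_two a]
      ac_rfl
    · rw [hasseP_cons, hh P, hc]
      show E P + symP P a (d * a) + sym _ (mapUnits _ (d * a * c ^ 2)) = E P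
      rw [map_mul (mapUnits _) (d * a), map_pow, sym_mul_sq_right]
      show E P + symP P a (d * a) + symP P a (d * a) = E P
      generalize symP P a (d * a) = s, E P = e
      revert s e
      decide
    · rw [negCount_map_cons, hneg φ]
      simp only [ha φ]
      split_ifs <;> omega

end Fermat.Agent.HasseInvariant

end
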