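import Fermat.Agent.QuadraticHauptsatz.Basic
import Fermat.Agent.QuadForms.Isotropy
import Fermat.Agent.HasseNorm.Conic
import Fermat.Agent.Pfister.Classification

/-!
# Discriminant and Hasse invariant

Let `F` be a field of characteristic not two in which the symbol `(a, b)`, the solubility of
`a x² + b y² = 1`, is bilinear and every form in five variables has a zero.  Rank, square class of
the discriminant and `∑_{i < j} (a i, a j)` are additive on forms with values in a twisted product,
which kills the hyperbolic plane; this gives their invariance and, by induction on the rank, the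
classification of forms.
-/

set_option autoImplicit false

noncomputable section

open QuadraticMap
open Fermat.Agent.WittRat
open Fermat.Agent.QuadraticHauptsatz (Aniso exists_diag_eq diag_eq_sum)
open FA.QuadForms (Isotropic)

namespace Fermat.Agent.HasseInvariant

variable {F : Type*} [Field F]

/-- `a x² + b y² = 1` has a solution. -/
def conic (a b : F) : Prop := ∃ x y : F, a * x ^ 2 + b * y ^ 2 = 1

theorem conic_comm {a b : F} : conic a b ↔ conic b a :=
  ⟨fun ⟨x, y, h⟩ => ⟨y, x, by rw [← h, add_comm]⟩, fun ⟨x, y, h⟩ => ⟨y, x, by rw [← h, add_comm]⟩⟩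

theorem conic_mul_sq {a b : F} {s : F} (hs : s ≠ 0) : conic a (b * s ^ 2) ↔ conic a b := by
  constructor
  · rintro ⟨x, y, h⟩
    exact ⟨x, s * y, by rw [← h]; ring⟩
  · rintro ⟨x, y, h⟩
    refine ⟨x, y / s, ?_⟩
    rw [← h]
    field_simp

variable (F) in
/-- The field is locally like: bilinear symbol, zeros in five variables. -/
structure LocalLike : Prop where
  two_ne_zero : (2 : F) ≠ 0
  bilinear : ∀ a b c : Fˣ, conic (a : F) ((b : F) * c) ↔ (conic (a : F) b ↔ conic (a : F) c)
  five : ∀ a : Fin 5 → Fˣ, Isotropic fun i => (a i : F)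

open scoped Classical in
/-- The symbol. -/
def sym (a b : Fˣ) : ZMod 2 := if conic (a : F) b then 0 else 1

theorem sym_eq_zero {a b : Fˣ} : sym a b = 0 ↔ conic (a : F) b := by
  unfold sym
  split_ifs with h <;> simp [h]

theorem sym_comm (a b : Fˣ) : sym a b = sym b a := by
  unfold sym
  rw [conic_comm]

theorem sym_mul_sq_right (a b s : Fˣ) : sym a (b * s ^ 2) = sym a b := by
  unfold sym
  rw [Units.val_mul, Units.val_pow_eq_pow_val, conic_mul_sq s.ne_zero]

variable (hF : LocalLike F)
include hF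

theorem sym_mul_right (a b c : Fˣ) : sym a (b * c) = sym a b + sym a c := by
  have h := hF.bilinear a b c
  unfold sym
  rw [Units.val_mul]
  by_cases hb : conic (a : F) b <;> by_cases hc : conic (a : F) c <;>
    simp only [h, hb, hc, iff_true, iff_false, not_true, if_true, if_false] <;>
      decide

theorem sym_mul_left (a b c : Fˣ) : sym (a * b) c = sym a c + sym b c := by
  rw [sym_comm, sym_mul_right hF, sym_comm c, sym_comm c]

theorem sym_self_neg (a : Fˣ) : sym a (-a) = 0 :=
  sym_eq_zero.2 (FA.HasseCyclic.exists_conic_point hF.two_ne_zero a.ne_zero (-a).ne_zero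
    (p := 0) (q := 1) (by simp))

/-- The Steinberg relation. -/
theorem sym_binary {a b c : Fˣ} (h : (a : F) + b = c) : sym a b = sym c (a * b * c) := by
  have h1 : sym (a * c⁻¹) (b * c⁻¹) = 0 := sym_eq_zero.2 ⟨1, 1, by
    simp only [Units.val_mul, Units.val_inv_eq_inv_val, one_pow, mul_one]
    rw [← add_mul, h, mul_inv_cancel₀ c.ne_zero]⟩
  have hinv : ∀ x : Fˣ, sym x c⁻¹ = sym x c := fun x => by
    rw [show c⁻¹ = c * (c⁻¹) ^ 2 by group, sym_mul_sq_right]
  rw [sym_mul_left hF, sym_mul_right hF, sym_mul_right hF, hinv, sym_comm c⁻¹ b, hinv,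
    sym_comm c⁻¹ c⁻¹, hinv, sym_comm c⁻¹ c, hinv] at h1
  rw [sym_mul_right hF, sym_mul_right hF, sym_comm c a, sym_comm c b]
  generalize sym a b = p, sym a c = q, sym b c = r, sym c c = t at h1 ⊢
  revert p q r t
  decide

/-! ### The group of invariants -/

omit hF in
/-- The squares. -/
abbrev sqUnits (F : Type*) [Field F] : Subgroup Fˣ := (powMonoidHom 2 : Fˣ →* Fˣ).range

omit hF in
/-- The square classes. -/
def SqC (F : Type*) [Field F] : Type _ := Additive (Fˣ ⧸ sqUnits F)

omit hF in
instance : AddCommGroup (SqC F) := inferInstanceAs (AddCommGroup (Additive (Fˣ ⧸ sqUnits F)))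

omit hF in
/-- The square class of a unit. -/
def sq' (a : Fˣ) : SqC F := Additive.ofMul (QuotientGroup.mk a)

omit hF in
theorem sq'_mul (a b : Fˣ) : sq' (a * b) = sq' a + sq' b := rfl

omit hF in
theorem sq'_eq_iff {a b : Fˣ} : sq' a = sq' b ↔ ∃ c : Fˣ, a = b * c ^ 2 := by
  refine (show sq' a = sq' b ↔ (QuotientGroup.mk b : Fˣ ⧸ sqUnits F) = QuotientGroup.mk a from
    ⟨fun h => h.symm, fun h => h.symm⟩).trans (QuotientGroup.eq.trans ?_)
  constructor
  · rintro ⟨c, hc⟩
    exact ⟨c, by rw [show c ^ 2 = b⁻¹ * a from hc]; group⟩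
  · rintro ⟨c, rfl⟩
    exact ⟨c, by show c ^ 2 = _; group⟩

/-- The symbol of a unit and a class. -/
def symHom (a : Fˣ) : Fˣ ⧸ sqUnits F →* Multiplicative (ZMod 2) :=
  QuotientGroup.lift (sqUnits F)
    (MonoidHom.mk' (fun b => Multiplicative.ofAdd (sym a b)) fun b c => by
      rw [sym_mul_right hF, ofAdd_add])
    (by
      rintro x ⟨s, rfl⟩
      rw [MonoidHom.mem_ker, MonoidHom.mk'_apply, powMonoidHom_apply,
        show s ^ 2 = 1 * s ^ 2 by group, sym_mul_sq_right, sym_eq_zero.2 ⟨0, 1, by simp⟩,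
        ofAdd_zero])

/-- The pairing of classes. -/
def pair (d e : SqC F) : ZMod 2 :=
  Quotient.liftOn' (Additive.toMul d) (fun a => Multiplicative.toAdd (symHom hF a (Additive.toMul e)))
    (by
      intro a b hab
      obtain ⟨c, hc⟩ := QuotientGroup.leftRel_apply.1 hab
      induction Additive.toMul e using QuotientGroup.induction_on with
      | _ x =>
        show sym a x = sym b x
        rw [sym_comm a, sym_comm b, show b = a * c ^ 2 by
          rw [show c ^ 2 = a⁻¹ * b from hc]; group, sym_mul_sq_right])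

theorem pair_sq' (a b : Fˣ) : pair hF (sq' a) (sq' b) = sym a b := rfl

omit hF in
theorem sqC_induction {P : SqC F → Prop} (h : ∀ a, P (sq' a)) (d : SqC F) : P d := by
  obtain ⟨a, ha⟩ := QuotientGroup.mk_surjective (Additive.toMul d)
  have := h a
  rwa [sq', ha] at this

theorem pair_add_right (d e e' : SqC F) : pair hF d (e + e') = pair hF d e + pair hF d e' := by
  induction d using sqC_induction with
  | h a =>
    induction e using sqC_induction with
    | h b =>
      induction e' using sqC_induction with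
      | h c => rw [← sq'_mul, pair_sq', pair_sq', pair_sq', sym_mul_right hF]

theorem pair_comm (d e : SqC F) : pair hF d e = pair hF e d := by
  induction d using sqC_induction with
  | h a =>
    induction e using sqC_induction with
    | h b => rw [pair_sq', pair_sq', sym_comm]

theorem pair_add_left (d d' e : SqC F) : pair hF (d + d') e = pair hF d e + pair hF d' e := by
  rw [pair_comm, pair_add_right, pair_comm hF e, pair_comm hF e]

theorem pair_zero_right (d : SqC F) : pair hF d 0 = 0 := by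
  simpa using pair_add_right hF d 0 0

theorem pair_zero_left (d : SqC F) : pair hF 0 d = 0 := by
  rw [pair_comm, pair_zero_right]

theorem pair_neg_right (d e : SqC F) : pair hF d (-e) = -pair hF d e :=
  eq_neg_of_add_eq_zero_left (by rw [← pair_add_right, neg_add_cancel, pair_zero_right])

omit hF in
/-- Rank, discriminant class and Hasse invariant. -/
@[ext] structure Inv (hF : LocalLike F) where
  /-- The rank. -/
  rk : ℤ
  /-- The discriminant. -/
  disc : SqC F
  /-- The Hasse invariant. -/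
  hw : ZMod 2

instance : Add (Inv hF) :=
  ⟨fun x y => ⟨x.rk + y.rk, x.disc + y.disc, x.hw + y.hw + pair hF x.disc y.disc⟩⟩

instance : Zero (Inv hF) := ⟨⟨0, 0, 0⟩⟩

instance : Neg (Inv hF) := ⟨fun x => ⟨-x.rk, -x.disc, -x.hw + pair hF x.disc x.disc⟩⟩

instance : AddCommGroup (Inv hF) where
  add_assoc x y z := by
    refine Inv.ext (add_assoc x.rk y.rk z.rk) (add_assoc x.disc y.disc z.disc) ?_
    show x.hw + y.hw + pair hF x.disc y.disc + z.hw + pair hF (x.disc + y.disc) z.disc =
      x.hw + (y.hw + z.hw + pair hF y.disc z.disc) + pair hF x.disc (y.disc + z.disc)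
    rw [pair_add_left, pair_add_right]
    ring
  zero_add x := by
    refine Inv.ext (zero_add x.rk) (zero_add x.disc) ?_
    show 0 + x.hw + pair hF 0 x.disc = x.hw
    rw [pair_zero_left, zero_add, add_zero]
  add_zero x := by
    refine Inv.ext (add_zero x.rk) (add_zero x.disc) ?_
    show x.hw + 0 + pair hF x.disc 0 = x.hw
    rw [pair_zero_right, add_zero, add_zero]
  neg_add_cancel x := by
    refine Inv.ext (neg_add_cancel x.rk) (neg_add_cancel x.disc) ?_
    show -x.hw + pair hF x.disc x.disc + x.hw + pair hF (-x.disc) x.disc = 0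
    rw [pair_comm hF (-x.disc), pair_neg_right]
    ring
  add_comm x y := by
    refine Inv.ext (add_comm x.rk y.rk) (add_comm x.disc y.disc) ?_
    show x.hw + y.hw + pair hF x.disc y.disc = y.hw + x.hw + pair hF y.disc x.disc
    rw [pair_comm hF y.disc, add_comm x.hw]
  nsmul := nsmulRec
  zsmul := zsmulRec

theorem inv_add (x y : Inv hF) :
    x + y = ⟨x.rk + y.rk, x.disc + y.disc, x.hw + y.hw + pair hF x.disc y.disc⟩ := rfl

/-- The rank as a homomorphism. -/
def rkHom : Inv hF →+ ℤ where
  toFun := Inv.rk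
  map_zero' := rfl
  map_add' _ _ := rfl

/-- The invariants of `⟨a⟩`. -/
def gen (a : Fˣ) : Inv hF := ⟨1, sq' a, 0⟩

/-- The invariants of the hyperbolic plane. -/
def plane : Inv hF := ⟨2, sq' (-1), 0⟩

/-- The invariants as a map with the relations of the Witt group. -/
def invMap : WittMap F (Inv hF ⧸ AddSubgroup.zmultiples (plane hF)) where
  toFun a := QuotientAddGroup.mk (gen hF a)
  mul_sq a b := congrArg _ (Inv.ext rfl (sq'_eq_iff.2 ⟨b, rfl⟩) rfl)
  add_neg a := by
    rw [← QuotientAddGroup.mk_add, QuotientAddGroup.eq_zero_iff]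
    refine AddSubgroup.mem_zmultiples_iff.2 ⟨1, ?_⟩
    rw [one_zsmul, inv_add]
    refine Inv.ext rfl ?_ ?_
    · show sq' (-1) = sq' a + sq' (-a)
      rw [← sq'_mul, sq'_eq_iff]
      exact ⟨a⁻¹, by rw [mul_neg, neg_mul, pow_two]; group⟩
    · show (0 : ZMod 2) = 0 + 0 + pair hF (sq' a) (sq' (-a))
      rw [pair_sq', sym_self_neg hF, add_zero, add_zero]
  binary a b c h := by
    rw [← QuotientAddGroup.mk_add, ← QuotientAddGroup.mk_add, inv_add, inv_add]
    refine congrArg _ (Inv.ext rfl ?_ ?_)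
    · show sq' a + sq' b = sq' c + sq' (a * b * c)
      rw [← sq'_mul, ← sq'_mul, sq'_eq_iff]
      exact ⟨c⁻¹, Units.ext (by push_cast; field_simp)⟩
    · show 0 + 0 + pair hF (sq' a) (sq' b) = 0 + 0 + pair hF (sq' c) (sq' (a * b * c))
      rw [pair_sq', pair_sq', sym_binary hF h]

/-- The invariants of a diagonal form. -/
def inv {n : ℕ} (w : Fin n → Fˣ) : Inv hF := ∑ i, gen hF (w i)

theorem rk_inv {n : ℕ} (w : Fin n → Fˣ) : (inv hF w).rk = n := by
  show rkHom hF (∑ i, gen hF (w i)) = n
  rw [map_sum]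
  simp [rkHom, gen]

/-- **Equivalent forms have the same invariants.** -/
theorem inv_eq_of_equivalent {n : ℕ} {w v : Fin n → Fˣ} (h : Equivalent (diag w) (diag v)) :
    inv hF w = inv hF v := by
  have e := congrArg (lift (invMap hF)) (cls_eq_of_equivalent hF.two_ne_zero h)
  simp only [cls, map_sum, lift_wittClass] at e
  change ∑ i, (QuotientAddGroup.mk' _ (gen hF (w i))) =
    ∑ i, (QuotientAddGroup.mk' _ (gen hF (v i))) at e
  rw [← map_sum, ← map_sum, QuotientAddGroup.mk'_apply, QuotientAddGroup.mk'_apply,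
    QuotientAddGroup.eq] at e
  obtain ⟨k, hk⟩ := AddSubgroup.mem_zmultiples_iff.1 e
  have hk0 : k = 0 := by
    have := congrArg (rkHom hF) hk
    rw [map_zsmul, map_add, map_neg] at this
    simp only [rkHom, AddMonoidHom.coe_mk, ZeroHom.coe_mk, plane, smul_eq_mul] at this
    rw [show (∑ i, gen hF (w i)).rk = n from rk_inv hF w,
      show (∑ i, gen hF (v i)).rk = n from rk_inv hF v] at this
    omega
  rw [hk0, zero_zsmul, eq_comm] at hk
  exact neg_add_eq_zero.1 hk

theorem inv_cons {n : ℕ} (a : Fˣ) (w : Fin n → Fˣ) :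
    inv hF (Fin.cons a w) = gen hF a + inv hF w := by
  simp [inv, Fin.sum_univ_succ]

/-- Forms in three or more variables have a value in common. -/
theorem exists_common {n : ℕ} (hn : 3 ≤ n) (w v : Fin n → Fˣ) :
    ∃ (b : Fˣ) (x y : Fin n → F), diag w x = b ∧ diag v y = b := by
  let em : Fin 5 ↪ Fin n ⊕ Fin n :=
    ((Fin.castLEEmb (show 5 ≤ n + n by omega)).trans finSumFinEquiv.symm.toEmbedding)
  let a : Fin n ⊕ Fin n → Fˣ := Sum.elim w fun i => -v i
  obtain ⟨z, hz0, hz⟩ := Isotropic.of_injective (a := fun i => (a i : F)) em em.injective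
    (hF.five fun i => a (em i))
  have hsum : diag w (fun i => z (.inl i)) = diag v fun i => z (.inr i) := by
    rw [diag_eq_sum, diag_eq_sum]
    simp only [a, Fintype.sum_sum_type, Sum.elim_inl, Sum.elim_inr, Units.val_neg, neg_mul,
      Finset.sum_neg_distrib] at hz
    exact eq_of_sub_eq_zero ((sub_eq_add_neg _ _).trans hz)
  by_cases hval : diag w (fun i => z (.inl i)) = 0
  swap
  · exact ⟨Units.mk0 _ hval, _, _, rfl, hsum.symm⟩
  have key : ∀ (u : Fin n → Fˣ) (p : Fin n → F), p ≠ 0 → diag u p = 0 → ¬ Aniso u :=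
    fun u p hp h0 hu => hp (hu p (by rwa [diag_eq_sum] at h0))
  have hone : ∀ u : Fin n → Fˣ, diag u (Pi.single ⟨0, by omega⟩ 1) = u ⟨0, by omega⟩ := fun u => by
    rw [diag_eq_sum, Finset.sum_eq_single ⟨0, by omega⟩] <;>
      simp +contextual
  by_cases hw : (fun i => z (.inl i)) = 0
  · have hv : (fun i => z (.inr i)) ≠ 0 := fun e => hz0 (funext fun i => by
      cases i with
      | inl i => exact congrFun hw i
      | inr i => exact congrFun e i)
    obtain ⟨y, hy⟩ := exists_diag_eq hF.two_ne_zero (key v _ hv (hsum ▸ hval))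
      (w ⟨0, by omega⟩ : F)
    exact ⟨_, _, y, hone w, hy⟩
  · obtain ⟨x, hx⟩ := exists_diag_eq hF.two_ne_zero (key w _ hw hval) (v ⟨0, by omega⟩ : F)
    exact ⟨_, x, _, hx, hone v⟩

/-- In two variables a form with the same invariants takes the first coefficient. -/
theorem exists_value_two (w v : Fin 2 → Fˣ) (h : inv hF w = inv hF v) :
    ∃ y, diag v y = (w 0 : F) := by
  have hd := congrArg Inv.disc h
  have hh := congrArg Inv.hw h
  simp only [inv, Fin.sum_univ_two, inv_add, gen, zero_add, pair_sq'] at hd hh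
  rw [← sq'_mul, ← sq'_mul, sq'_eq_iff] at hd
  obtain ⟨c, hc⟩ := hd
  have hq : sym (w 0) (w 1) = sym (w 0) (w 0) + sym (v 0) (w 0) + sym (v 1) (w 0) := by
    rw [show w 1 = (w 0 * (v 0 * v 1)) * (c * (w 0)⁻¹) ^ 2 by
        rw [mul_pow, show w 1 = (w 0)⁻¹ * (v 0 * v 1 * c ^ 2) by rw [← hc]; group]
        apply Units.ext
        push_cast
        field_simp,
      sym_mul_sq_right, sym_mul_right hF, sym_mul_right hF, sym_comm (w 0) (v 0),
      sym_comm (w 0) (v 1), add_assoc]
  have hinv : ∀ x : Fˣ, sym x (w 0)⁻¹ = sym x (w 0) := fun x => by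
    rw [show (w 0)⁻¹ = w 0 * ((w 0)⁻¹) ^ 2 by group, sym_mul_sq_right]
  have h0 : sym (v 0 * (w 0)⁻¹) (v 1 * (w 0)⁻¹) = 0 := by
    rw [sym_mul_left hF, sym_mul_right hF, sym_mul_right hF, hinv, sym_comm (w 0)⁻¹ (v 1), hinv,
      sym_comm (w 0)⁻¹ (w 0)⁻¹, hinv, sym_comm (w 0)⁻¹ (w 0), hinv, ← hh, hq]
    generalize sym (w 0) (w 0) = p, sym (v 0) (w 0) = q, sym (v 1) (w 0) = r
    revert p q r
    decide
  obtain ⟨x, y, hxy⟩ := sym_eq_zero.1 h0
  refine ⟨![x, y], ?_⟩
  rw [diag_eq_sum, Fin.sum_univ_two]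
  simp only [Units.val_mul, Units.val_inv_eq_inv_val] at hxy
  field_simp at hxy
  simp only [Matrix.cons_val_zero, Matrix.cons_val_one]
  linear_combination hxy

/-- **Forms with the same rank and invariants are equivalent.** -/
theorem equivalent_of_inv : ∀ {n : ℕ} (w v : Fin n → Fˣ), inv hF w = inv hF v →
    Equivalent (diag w) (diag v)
  | 0, w, v, _ => diag_congr (funext fun i => i.elim0)
  | 1, w, v, h => by
    have hd := congrArg Inv.disc h
    simp only [inv, Fin.sum_univ_one, gen, sq'_eq_iff] at hd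
    obtain ⟨c, hc⟩ := hd
    exact (diag_congr (funext fun i => by rw [Fin.fin_one_eq_zero i, hc])).trans
      (diag_mul_sq v fun _ => c)
  | n + 2, w, v, h => by
    obtain ⟨b, x, y, hx, hy⟩ : ∃ (b : Fˣ) (x y : Fin (n + 2) → F),
        diag w x = b ∧ diag v y = b := by
      rcases Nat.eq_zero_or_pos n with rfl | hn
      · obtain ⟨y, hy⟩ := exists_value_two hF w v h
        refine ⟨w 0, Pi.single 0 1, y, ?_, hy⟩
        simp [Fin.sum_univ_two]
      · exact exists_common hF (by omega) w v
    obtain ⟨c, hc, -⟩ := exists_split w b x hx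
    obtain ⟨c', hc', -⟩ := exists_split v b y hy
    have := inv_eq_of_equivalent hF hc
    rw [h, inv_eq_of_equivalent hF hc', inv_cons, inv_cons, add_right_inj] at this
    exact hc.trans ((diag_cons_congr b (equivalent_of_inv c c' this.symm)).trans hc'.symm)

omit hF in
/-- The Hasse invariant. -/
def hasse {n : ℕ} (w : Fin n → Fˣ) : ZMod 2 := ∑ i, ∑ j, if i < j then sym (w i) (w j) else 0

omit hF in
theorem hasse_cons {n : ℕ} (a : Fˣ) (w : Fin n → Fˣ) :
    hasse (Fin.cons a w) = hasse w + ∑ j, sym a (w j) := by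
  simp only [hasse, Fin.sum_univ_succ, Fin.cons_zero, Fin.cons_succ, Fin.succ_lt_succ_iff,
    Fin.succ_pos, Fin.not_lt_zero, if_true, if_false, zero_add]
  rw [add_comm]

theorem inv_eq : ∀ {n : ℕ} (w : Fin n → Fˣ),
    inv hF w = ⟨n, sq' (∏ i, w i), hasse w⟩
  | 0, w => by
    rw [inv, Finset.univ_eq_empty, Finset.sum_empty, Finset.prod_empty]
    exact Inv.ext rfl rfl (by simp [hasse]; rfl)
  | n + 1, w => by
    conv_lhs => rw [← Fin.cons_self_tail w]
    rw [inv_cons, inv_eq, inv_add]
    refine Inv.ext (by simp [gen]; ring) ?_ ?_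
    · show sq' (w 0) + sq' _ = _
      rw [← sq'_mul, Fin.prod_univ_succ]
      rfl
    · conv_rhs => rw [← Fin.cons_self_tail w, hasse_cons]
      have hp : ∀ {m : ℕ} (u : Fin m → Fˣ),
          pair hF (sq' (w 0)) (sq' (∏ i, u i)) = ∑ j, sym (w 0) (u j) := fun {m} u => by
        induction m with
        | zero =>
          rw [Finset.univ_eq_empty, Finset.sum_empty, Finset.prod_empty]
          exact pair_zero_right hF _
        | succ m ih =>
          rw [Fin.prod_univ_succ, Fin.sum_univ_succ, sq'_mul, pair_add_right, pair_sq', ih]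
      show 0 + hasse (Fin.tail w) + pair hF (sq' (w 0)) _ = _
      rw [hp, zero_add]

omit hF in
/-- The invariant is the parity of the number of pairs without a point. -/
theorem hasse_eq_card {n : ℕ} (w : Fin n → Fˣ) :
    hasse w = ((Nat.card {p : Fin n × Fin n // p.1 < p.2 ∧ ¬ conic (w p.1 : F) (w p.2)} : ℕ) :
      ZMod 2) := by
  classical
  rw [Nat.card_eq_fintype_card, Fintype.card_subtype, ← Finset.sum_boole, Fintype.sum_prod_type,
    hasse]
  refine Finset.sum_congr rfl fun i _ => Finset.sum_congr rfl fun j _ => ?_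
  unfold sym
  split_ifs <;> simp_all

/-- **The classification.** -/
theorem equivalent_iff {n : ℕ} (w v : Fin n → Fˣ) :
    Equivalent (diag w) (diag v) ↔
      (∃ c : F, c ≠ 0 ∧ ∏ i, (w i : F) = (∏ i, (v i : F)) * c ^ 2) ∧
      Nat.card {p : Fin n × Fin n // p.1 < p.2 ∧ ¬ conic (w p.1 : F) (w p.2)} % 2 =
        Nat.card {p : Fin n × Fin n // p.1 < p.2 ∧ ¬ conic (v p.1 : F) (v p.2)} % 2 := by
  rw [← ZMod.natCast_eq_natCast_iff', ← hasse_eq_card, ← hasse_eq_card]
  constructor
  · intro h
    have e := inv_eq_of_equivalent hF h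
    rw [inv_eq, inv_eq, Inv.ext_iff] at e
    obtain ⟨c, hc⟩ := sq'_eq_iff.1 e.2.1
    refine ⟨⟨c, c.ne_zero, ?_⟩, e.2.2⟩
    simpa using congrArg Units.val hc
  · rintro ⟨⟨c, hc0, hc⟩, hh⟩
    refine equivalent_of_inv hF w v ?_
    rw [inv_eq, inv_eq]
    exact Inv.ext rfl (sq'_eq_iff.2 ⟨Units.mk0 c hc0, Units.ext (by simpa using hc)⟩) hh

end Fermat.Agent.HasseInvariant

end
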